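import Fermat.Agent.ChowlaSelberg.Classes

/-!
# A split prime of an imaginary quadratic field

If a prime `P` has norm a prime `p` not dividing the discriminant and `Pⁿ = (α)`, `n ≥ 1`, then
`p` does not divide the trace of `α`.
-/

set_option autoImplicit false
set_option linter.style.haveILetI false

noncomputable section

open NumberField Module Ideal UpperHalfPlane
open FA.FieldClassBound FA.ChowlaSelberg
open scoped nonZeroDivisors

namespace FA.EllipticUnits

variable {K : Type*} [Field K] [NumberField K] {d : ℤ} {s : K} {e : K →+* ℂ}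

theorem exists_trace_norm (hK : finrank ℚ K = 2) (hd : Squarefree d) (hd0 : d < 0)
    (hs : s ^ 2 = (d : K)) (he : e s = Complex.I * (Real.sqrt (-(d : ℝ)) : ℂ)) (r : 𝓞 K) :
    ∃ t N : ℤ, e (r : K) + starRingEnd ℂ (e (r : K)) = t ∧
      e (r : K) * starRingEnd ℂ (e (r : K)) = N ∧ r ^ 2 - (t : 𝓞 K) * r + (N : 𝓞 K) = 0 ∧
      (absNorm (span {r}) : ℤ) = N := by
  obtain ⟨a, b, N, h, hN⟩ := exists_double_coord hK hd hd0 hs r
  have h' := congrArg e h
  rw [map_mul, map_add, map_mul, map_intCast, map_intCast, map_ofNat, he] at h'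
  have hc := congrArg (starRingEnd ℂ) h'
  simp only [map_mul, map_add, map_intCast, map_ofNat, Complex.conj_I, Complex.conj_ofReal] at hc
  have hr : (Real.sqrt (-(d : ℝ)) : ℂ) ^ 2 = -(d : ℂ) := by
    rw [← Complex.ofReal_pow, Real.sq_sqrt (by
      have := Int.cast_lt_zero (R := ℝ) |>.2 hd0
      linarith)]
    push_cast; rfl
  have hN' : (a : ℂ) ^ 2 - d * b ^ 2 = 4 * N := by exact_mod_cast hN
  set x := e (r : K)
  set y := starRingEnd ℂ x with hy
  have hsum : x + y = a := by linear_combination h' / 2 + hc / 2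
  have hsq : (Complex.I * (Real.sqrt (-(d : ℝ)) : ℂ)) ^ 2 = d := by
    rw [mul_pow, Complex.I_sq, hr]; ring
  have hdiff : x - y = b * (Complex.I * (Real.sqrt (-(d : ℝ)) : ℂ)) := by
    linear_combination h' / 2 - hc / 2
  have hprod : x * y = N := by
    linear_combination (x + y + a) * hsum / 4 -
      (x - y + b * (Complex.I * (Real.sqrt (-(d : ℝ)) : ℂ))) * hdiff / 4 -
      (b : ℂ) ^ 2 * hsq / 4 + hN' / 4
  refine ⟨a, N, hsum, hprod, RingOfIntegers.coe_injective (e.injective ?_), ?_⟩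
  · simp only [map_add, map_sub, map_mul, map_pow, map_intCast, map_zero]
    linear_combination x * hsum - hprod
  · rw [absNorm_span_singleton]
    have h1 := natAbs_norm_eq hK hd0 hs he r
    have h2 : (Complex.normSq x : ℂ) = N := by rw [Complex.normSq_eq_conj_mul_self, mul_comm, hprod]
    rw [← h1, Complex.ofReal_natCast] at h2
    refine Int.cast_injective (α := ℂ) ?_
    rw [Int.cast_natCast]
    exact h2

theorem absNorm_span_natCast (hK : finrank ℚ K = 2) (hd0 : d < 0)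
    (hs : s ^ 2 = (d : K)) (he : e s = Complex.I * (Real.sqrt (-(d : ℝ)) : ℂ)) (p : ℕ) :
    absNorm (span {(p : 𝓞 K)}) = p ^ 2 := by
  rw [absNorm_span_singleton]
  have h := natAbs_norm_eq hK hd0 hs he (p : 𝓞 K)
  simp only [map_natCast, Complex.normSq_natCast] at h
  rw [sq]
  exact_mod_cast h

theorem intCast_mem_iff_dvd {P : Ideal (𝓞 K)} {p : ℕ} (hp : p.Prime) (hP : absNorm P = p)
    (m : ℤ) : (m : 𝓞 K) ∈ P ↔ (p : ℤ) ∣ m := by
  have hpP : ((p : ℤ) : 𝓞 K) ∈ P := by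
    rw [Int.cast_natCast, ← hP]
    exact absNorm_mem P
  refine ⟨fun hm => ?_, fun ⟨k, hk⟩ => by rw [hk, Int.cast_mul]; exact P.mul_mem_right _ hpP⟩
  by_contra hd
  obtain ⟨a, b, hab⟩ := (Nat.prime_iff_prime_int.1 hp).coprime_iff_not_dvd.2 hd
  have h1 : (1 : 𝓞 K) ∈ P := by
    have := P.add_mem (P.mul_mem_left (a : 𝓞 K) hpP) (P.mul_mem_left (b : 𝓞 K) hm)
    rwa [← Int.cast_mul, ← Int.cast_mul, ← Int.cast_add, hab, Int.cast_one] at this
  rw [(eq_top_iff_one P).2 h1, absNorm_top] at hP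
  exact hp.one_lt.ne hP

theorem exists_intCast_sub_mem {P : Ideal (𝓞 K)} {p : ℕ} (hp : p.Prime) (hP : absNorm P = p)
    (r : 𝓞 K) : ∃ m : ℤ, r - (m : 𝓞 K) ∈ P := by
  have hcard : Nat.card (𝓞 K ⧸ P) = p := by
    rw [← hP, absNorm_apply, Submodule.cardQuot_apply]
  haveI : Finite (𝓞 K ⧸ P) := Nat.finite_of_card_ne_zero (by rw [hcard]; exact hp.ne_zero)
  have hbij : Function.Bijective fun i : Fin p => Ideal.Quotient.mk P (((i : ℕ) : ℤ) : 𝓞 K) := by
    rw [Nat.bijective_iff_injective_and_card, hcard, Nat.card_fin]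
    refine ⟨fun i j hij => ?_, rfl⟩
    rw [Ideal.Quotient.eq, ← Int.cast_sub, intCast_mem_iff_dvd hp hP] at hij
    have := Int.eq_zero_of_abs_lt_dvd hij (by rw [abs_lt]; constructor <;> omega)
    exact Fin.ext (by omega)
  obtain ⟨i, hi⟩ := hbij.2 (Ideal.Quotient.mk P r)
  exact ⟨((i : ℕ) : ℤ), Ideal.Quotient.eq.1 hi.symm⟩

/-- The square of a prime whose norm is a prime not dividing `D` is not `(p)`. -/
theorem sq_ne_span (hK : finrank ℚ K = 2) (hd : Squarefree d) (hd0 : d < 0)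
    (hs : s ^ 2 = (d : K)) (he : e s = Complex.I * (Real.sqrt (-(d : ℝ)) : ℂ))
    {P : Ideal (𝓞 K)} {p : ℕ} (hp : p.Prime) (hP : absNorm P = p)
    (hpD : ¬(p : ℤ) ∣ discK d) : P ^ 2 ≠ span {(p : 𝓞 K)} := fun hsq => by
  obtain ⟨w, hw⟩ := exists_omega hs he
  obtain ⟨m, hm⟩ := exists_intCast_sub_mem hp hP w
  set β := w - (m : 𝓞 K)
  obtain ⟨T, M, hT, hM, hrel, -⟩ := exists_trace_norm hK hd hd0 hs he β
  have hβ : β ^ 2 ∈ span {(p : 𝓞 K)} := hsq ▸ Ideal.pow_mem_pow hm 2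
  have hMP : (M : 𝓞 K) ∈ P := by
    rw [show (M : 𝓞 K) = (T : 𝓞 K) * β - β * β by linear_combination hrel]
    exact P.sub_mem (P.mul_mem_left _ hm) (P.mul_mem_left _ hm)
  have hMd := (intCast_mem_iff_dvd hp hP M).1 hMP
  have hD : T ^ 2 - 4 * M = discK d := by
    have h0 : (0 : ℝ) ≤ -(discK d : ℝ) := by
      have := Int.cast_lt_zero (R := ℝ) |>.2 (discK_neg hd0)
      linarith
    have hr : ((Real.sqrt (-(discK d : ℝ)) : ℂ)) ^ 2 = -(discK d : ℂ) := by
      rw [← Complex.ofReal_pow, Real.sq_sqrt h0]; push_cast; rfl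
    have hx : e (β : K) = FA.CMFields.omega (discK d) - m := by simp [β, hw]
    have hy : starRingEnd ℂ (e (β : K)) =
        ((discK d : ℂ) - Complex.I * (Real.sqrt (-(discK d : ℝ)) : ℂ)) / 2 - m := by
      rw [hx, FA.CMFields.omega, map_sub, map_div₀, map_add, map_mul]
      simp only [map_intCast, map_ofNat, Complex.conj_I, Complex.conj_ofReal]
      ring
    rw [hy] at hT hM
    rw [hx, FA.CMFields.omega] at hT hM
    have key : (T : ℂ) ^ 2 - 4 * M = discK d := by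
      rw [← hT, ← hM]
      linear_combination -(hr) + (Real.sqrt (-(discK d : ℝ)) : ℂ) ^ 2 * Complex.I_sq
    exact_mod_cast key
  have hTβ : (T : 𝓞 K) * β ∈ span {(p : 𝓞 K)} := by
    rw [show (T : 𝓞 K) * β = β ^ 2 + (M : 𝓞 K) by linear_combination -hrel]
    obtain ⟨k, hk⟩ := hMd
    exact Ideal.add_mem _ hβ (mem_span_singleton.2 ⟨(k : 𝓞 K), by rw [hk]; push_cast; ring⟩)
  have hTd : (p : ℤ) ∣ T := by
    by_contra h
    obtain ⟨a, b, hab⟩ := (Nat.prime_iff_prime_int.1 hp).coprime_iff_not_dvd.2 h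
    have hab' : (a : 𝓞 K) * (p : 𝓞 K) + (b : 𝓞 K) * (T : 𝓞 K) = 1 := by
      exact_mod_cast congrArg (Int.cast : ℤ → 𝓞 K) hab
    obtain ⟨y, hy⟩ : ∃ y, β = (p : 𝓞 K) * y := mem_span_singleton.1 (by
      rw [show β = (a : 𝓞 K) * β * (p : 𝓞 K) + (b : 𝓞 K) * ((T : 𝓞 K) * β) by
        linear_combination -β * hab']
      exact Ideal.add_mem _ (Ideal.mul_mem_left _ _ (mem_span_singleton_self _))
        (Ideal.mul_mem_left _ _ hTβ))
    obtain ⟨u, v, huv⟩ := exists_omega_coord hK hd hd0 hs he y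
    have h1 := congrArg (fun r : 𝓞 K => e (r : K)) hy
    simp only [β, map_sub, map_intCast, map_mul, map_natCast, hw, huv] at h1
    have him := congrArg Complex.im h1
    simp only [Complex.sub_im, Complex.intCast_im, sub_zero, Complex.mul_im, Complex.natCast_re,
      Complex.natCast_im, zero_mul, add_zero, Complex.add_im, Complex.intCast_re, zero_add] at him
    rw [← mul_assoc] at him
    have hpv : (p : ℝ) * v = 1 :=
      mul_right_cancel₀ (omega_im_ne_zero hd0) (by rw [one_mul]; exact him.symm)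
    have : (p : ℤ) * v = 1 := by exact_mod_cast hpv
    exact hp.one_lt.ne' (by exact_mod_cast Int.eq_one_of_mul_eq_one_right (by positivity) this)
  exact hpD (hD ▸ dvd_sub (dvd_pow hTd two_ne_zero) (dvd_mul_of_dvd_right hMd 4))

/-- **The trace of a generator of a power of a split prime is prime to `p`.** -/
theorem exists_trace_not_dvd (hK : finrank ℚ K = 2) (hd : Squarefree d) (hd0 : d < 0)
    (hs : s ^ 2 = (d : K)) (he : e s = Complex.I * (Real.sqrt (-(d : ℝ)) : ℂ))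
    {P : Ideal (𝓞 K)} (hPp : P.IsPrime) {p : ℕ} (hp : p.Prime) (hP : absNorm P = p)
    (hpD : ¬(p : ℤ) ∣ discK d) {n : ℕ} (hn : n ≠ 0) {α : 𝓞 K} (hα : P ^ n = span {α}) :
    ∃ t : ℤ, e (α : K) + starRingEnd ℂ (e (α : K)) = t ∧ ¬(p : ℤ) ∣ t ∧
      e (α : K) * starRingEnd ℂ (e (α : K)) = (p : ℂ) ^ n := by
  obtain ⟨t, N, ht, hN, hrel, hnorm⟩ := exists_trace_norm hK hd hd0 hs he α
  have hNp : N = (p : ℤ) ^ n := by
    rw [← hnorm, ← hα, map_pow, hP]; push_cast; rfl
  refine ⟨t, ht, fun hdvd => ?_, by rw [hN, hNp]; push_cast; rfl⟩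
  obtain ⟨k, hk⟩ := hdvd
  obtain ⟨l, hl⟩ : (p : ℤ) ∣ N := hNp ▸ dvd_pow_self _ hn
  have hle : P ^ (n * 2) ≤ span {(p : 𝓞 K)} := by
    rw [pow_mul, hα, span_singleton_pow, span_singleton_le_span_singleton]
    refine ⟨(k : 𝓞 K) * α - (l : 𝓞 K), ?_⟩
    rw [hk, hl] at hrel
    push_cast at hrel
    linear_combination hrel
  have hP0 : P ≠ ⊥ := fun h => by simp [h] at hP; exact hp.ne_zero hP.symm
  obtain ⟨j, -, hj⟩ := (dvd_prime_pow (Ideal.prime_of_isPrime hP0 hPp) _).1 (dvd_iff_le.2 hle)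
  have hj' : span {(p : 𝓞 K)} = P ^ j := associated_iff_eq.1 hj
  have hj2 := congrArg absNorm hj'
  rw [absNorm_span_natCast hK hd0 hs he, map_pow, hP] at hj2
  obtain rfl := Nat.pow_right_injective hp.two_le hj2
  exact sq_ne_span hK hd hd0 hs he hp hP hpD hj'.symm

end FA.EllipticUnits

end
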