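import Fermat.Agent.EllipticUnits.Sublattice
import Fermat.Agent.EllipticUnits.Field
import Fermat.Agent.ChowlaSelberg.Main
import Fermat.Agent.Tau.SingularIntegral

/-!
# Elliptic units

Let `P` be a prime of norm `p`, `p ∤ D`, with `P^h = (α)`. The quotients `r` of consecutive
discriminants in the chain `O ⊃ P ⊃ ⋯ ⊃ P^h` multiply to `α¹²`, so each divides both `p¹²` and
`α¹²`. As `α¹² + ᾱ¹²` is prime to `p`, the product `r r̄` divides `p¹²`; the numbers `p¹² / (r r̄)`
multiply to `1` and are units. The first is `(H C / H 1)²⁴`.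
-/

set_option autoImplicit false
set_option linter.style.haveILetI false

noncomputable section

open NumberField Module Ideal
open UpperHalfPlane hiding I
open FA.FieldClassBound FA.ChowlaSelberg FA.JInj FA.Mazur.Wp FA.Hatada FA.ModField
open scoped nonZeroDivisors ComplexConjugate

namespace FA.EllipticUnits

theorem isIntegral_conj {x : ℂ} (hx : IsIntegral ℤ x) : IsIntegral ℤ (conj x) :=
  hx.map ((starRingEnd ℂ).toIntAlgHom)

variable {K : Type*} [Field K] [NumberField K] {d : ℤ} {s : K} {e : K →+* ℂ}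
  {f : ClassGroup (𝓞 K) → ℤ × ℤ × ℤ} {T : ClassGroup (𝓞 K) → ℍ} {A : ClassGroup (𝓞 K) → 𝓞 K}

/-- A choice of reduced forms for the classes, with roots and generators. -/
def IsSystem (e : K →+* ℂ) (d : ℤ) (f : ClassGroup (𝓞 K) → ℤ × ℤ × ℤ)
    (T : ClassGroup (𝓞 K) → ℍ) (A : ClassGroup (𝓞 K) → 𝓞 K) : Prop :=
  ∀ C, ∃ hf : f C ∈ FA.Singular.Red (discK d),
    IsGen e (f C) (T C) (A C) ∧ formClass (f C) hf.2.2.1 (A C) = C

theorem exists_system (hK : finrank ℚ K = 2) (hd : Squarefree d) (hd0 : d < 0)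
    (hs : s ^ 2 = (d : K)) (he : e s = Complex.I * (Real.sqrt (-(d : ℝ)) : ℂ)) :
    ∃ f T A, IsSystem (K := K) e d f T A := by
  haveI : Fintype (FA.Singular.Red (discK d)) := (FA.Singular.red_finite _).fintype
  choose T A hg using fun f : FA.Singular.Red (discK d) =>
    exists_gen e hd0 hs he (f := (f : ℤ × ℤ × ℤ)) f.2.2.2.1 f.2.1
  set cls : FA.Singular.Red (discK d) → ClassGroup (𝓞 K) :=
    fun f => formClass f.1 f.2.2.2.1 (A f)
  have hsurj : Function.Surjective cls := by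
    have hinj : Function.Injective cls := fun f g h => Subtype.ext
      (eq_of_formClass_eq e hK hd hd0 hs he f.2 g.2 (hg f) (hg g) h)
    refine ((Fintype.bijective_iff_injective_and_card cls).2 ⟨hinj, ?_⟩).2
    have h := classNumber_eq_ncard_red hK hd hd0 hs
    rw [classNumber, ← Nat.card_coe_set_eq, Nat.card_eq_fintype_card] at h
    exact h.symm
  choose g hgC using hsurj
  exact ⟨fun C => (g C).1, fun C => T (g C), fun C => A (g C),
    fun C => ⟨(g C).2, hg (g C), hgC C⟩⟩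

theorem isIntegral_jfun_system (hd0 : d < 0) (hsys : IsSystem e d f T A) (C : ClassGroup (𝓞 K)) :
    IsIntegral ℤ (jfun (T C)) := by
  obtain ⟨hf, hg, -⟩ := hsys C
  have h : (f C).2.1 ^ 2 - 4 * (f C).1 * (f C).2.2 = discK d := hf.1
  exact FA.SingularIntegral.isIntegral_jfun (h ▸ discK_neg hd0) hg.1

/-- The lattice of an ideal. -/
theorem exists_lattice (hK : finrank ℚ K = 2) (hd : Squarefree d) (hd0 : d < 0)
    (hs : s ^ 2 = (d : K)) (he : e s = Complex.I * (Real.sqrt (-(d : ℝ)) : ℂ))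
    (hsys : IsSystem e d f T A) (I : (Ideal (𝓞 K))⁰) :
    ∃ (c : ℂ) (hc : c ≠ 0),
      (∀ z, z ∈ (scalePair (latPair (T (ClassGroup.mk0 I))) c hc).lattice ↔
        ∃ r ∈ I.1, e (r : K) = z) ∧
      Complex.normSq c * (T (ClassGroup.mk0 I)).im =
        absNorm I.1 * (Real.sqrt (-(discK d : ℝ)) / 2) := by
  set C := ClassGroup.mk0 I with hC
  obtain ⟨hf, hg, hfC⟩ := hsys C
  have hJ := formIdeal_mem_nonZeroDivisors hf.2.2.1 (A C)
  obtain ⟨x, y, hx, hy, hxy⟩ := ClassGroup.mk0_eq_mk0_iff.1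
    (show ClassGroup.mk0 I = ClassGroup.mk0 ⟨_, hJ⟩ from hfC.symm)
  have ha : ((f C).1 : ℂ) ≠ 0 := Int.cast_ne_zero.2 hf.2.2.1.ne'
  have hx' : e (x : K) ≠ 0 := (map_ne_zero e).2 (by simpa using hx)
  have hy' : e (y : K) ≠ 0 := (map_ne_zero e).2 (by simpa using hy)
  have hxy' : span {x} * I.1 = span {y} * formIdeal (f C) (A C) := hxy
  refine ⟨e (y : K) * (f C).1 / e (x : K), div_ne_zero (mul_ne_zero hy' ha) hx',
    fun z => ?_, ?_⟩
  · rw [mem_scalePair]
    constructor
    · rintro ⟨l, hl, rfl⟩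
      obtain ⟨r, hr, hrl⟩ := (mem_formIdeal_iff e hK hd hd0 hs he hf hg _).2 ⟨l, hl, rfl⟩
      obtain ⟨r', hr', hrr⟩ := mem_span_singleton_mul.1
        (hxy'.symm ▸ Ideal.mul_mem_mul (mem_span_singleton_self y) hr : y * r ∈ span {x} * I.1)
      refine ⟨r', hr', ?_⟩
      have h := congrArg (fun r : 𝓞 K => e (r : K)) hrr
      simp only [map_mul, hrl] at h
      field_simp
      linear_combination h
    · rintro ⟨r, hr, rfl⟩
      obtain ⟨r', hr', hrr⟩ := mem_span_singleton_mul.1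
        (hxy' ▸ Ideal.mul_mem_mul (mem_span_singleton_self x) hr :
          x * r ∈ span {y} * formIdeal (f C) (A C))
      obtain ⟨l, hl, hl'⟩ := (mem_formIdeal_iff e hK hd hd0 hs he hf hg _).1 ⟨r', hr', rfl⟩
      refine ⟨l, hl, ?_⟩
      have h := congrArg (fun r : 𝓞 K => e (r : K)) hrr
      simp only [map_mul, ← hl'] at h
      field_simp
      linear_combination h
  · have hN := congrArg absNorm hxy'
    rw [map_mul, map_mul, absNorm_span_singleton, absNorm_span_singleton] at hN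
    have hN' := congrArg (fun n : ℕ => (n : ℝ)) hN
    simp only [Nat.cast_mul, natAbs_norm_eq hK hd0 hs he] at hN'
    have haN : ((absNorm (formIdeal (f C) (A C)) : ℕ) : ℝ) = (f C).1 := by
      exact_mod_cast absNorm_formIdeal hK hd hd0 hs he hf hg
    rw [haN] at hN'
    have him := im_root hf hg
    have hx2 : Complex.normSq (e (x : K)) ≠ 0 := (map_ne_zero _).2 hx'
    rw [map_div₀, map_mul, Complex.normSq_intCast]
    field_simp
    linear_combination (T C).im * 2 * ((f C).1 : ℝ) * -hN' +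
      2 * Complex.normSq (e (x : K)) * ((absNorm I.1 : ℕ) : ℝ) * him

theorem norm_eta_pow (τ : ℍ) :
    height τ ^ 24 = τ.im ^ 12 * ‖ModularForm.discriminant τ‖ ^ 2 := by
  rw [FA.ChowlaSelberg.height, ModularForm.discriminant, norm_pow, mul_pow, ← pow_mul, ← pow_mul,
    show (√τ.im) ^ 24 = (√τ.im ^ 2) ^ 12 by ring, Real.sq_sqrt τ.im_pos.le]

theorem prod_div_range (D : ℕ → ℂ) (hD : ∀ n, D n ≠ 0) (n : ℕ) :
    ∏ i ∈ Finset.range n, D i / D (i + 1) = D 0 / D n := by
  induction n with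
  | zero => simp [hD 0]
  | succ n ih =>
    rw [Finset.prod_range_succ, ih]
    have := hD n
    field_simp

/-- **The elliptic unit of a class containing a prime of degree one not over `D`.** -/
theorem isIntegral_ratio (hK : finrank ℚ K = 2) (hd : Squarefree d) (hd0 : d < 0)
    (hs : s ^ 2 = (d : K)) (he : e s = Complex.I * (Real.sqrt (-(d : ℝ)) : ℂ))
    (hsys : IsSystem e d f T A) {P : (Ideal (𝓞 K))⁰} (hPp : P.1.IsPrime) {p : ℕ} (hp : p.Prime)
    (hP : absNorm P.1 = p) (hpD : ¬(p : ℤ) ∣ discK d) :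
    IsIntegral ℤ (((height (T (ClassGroup.mk0 P)) / height (T 1)) ^ 24 : ℝ) : ℂ) ∧
      IsIntegral ℤ (((height (T 1) / height (T (ClassGroup.mk0 P))) ^ 24 : ℝ) : ℂ) := by
  classical
  haveI := Fact.mk hp
  have hp0 : (p : ℂ) ≠ 0 := Nat.cast_ne_zero.2 hp.ne_zero
  choose c hc hmem hnorm using fun n : ℕ => exists_lattice hK hd hd0 hs he hsys (P ^ n)
  set L : ℕ → PeriodPair := fun n => scalePair (latPair (T (ClassGroup.mk0 (P ^ n)))) (c n) (hc n)
  set D : ℕ → ℂ := fun n => discr (L n) with hDdef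
  have hD : ∀ n, D n ≠ 0 := fun n => discr_ne_zero _
  have hcoe : ∀ n, (P ^ n).1 = P.1 ^ n := fun n => SubmonoidClass.coe_pow P n
  have hPne : ∀ n, P.1 ^ n ≠ ⊥ := fun n => pow_ne_zero n (mem_nonZeroDivisors_iff_ne_zero.1 P.2)
  have hinj : Function.Injective fun r : 𝓞 K => e (r : K) := fun r r' h =>
    RingOfIntegers.coe_injective (e.injective h)
  set r : ℕ → ℂ := fun n => D n / D (n + 1)
  have hr : ∀ n, r n ≠ 0 := fun n => div_ne_zero (hD n) (hD (n + 1))
  have hstep : ∀ n, IsIntegral ℤ (r n) ∧ IsIntegral ℤ ((p : ℂ) ^ 12 / r n) := by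
    intro n
    refine isIntegral_discr_div (isIntegral_jfun_system hd0 hsys _) (hc n) rfl
      (fun x hx => ?_) (fun x hx => ?_) ?_ ?_
    · obtain ⟨t, ht, rfl⟩ := (hmem (n + 1) x).1 hx
      exact (hmem n _).2 ⟨t, by rw [hcoe] at ht ⊢; exact Ideal.pow_le_pow_right n.le_succ ht, rfl⟩
    · obtain ⟨t, ht, rfl⟩ := (hmem n x).1 hx
      refine (hmem (n + 1) _).2 ⟨t * (p : 𝓞 K), ?_, by simp [mul_comm]⟩
      rw [hcoe] at ht ⊢
      rw [pow_succ]
      exact Ideal.mul_mem_mul ht (hP ▸ absNorm_mem P.1)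
    · by_contra h
      push Not at h
      have hle : P.1 ^ n ≤ P.1 ^ (n + 1) := fun t ht => by
        obtain ⟨t', ht', he'⟩ := (hmem (n + 1) _).1
          (h _ ((hmem n _).2 ⟨t, by rwa [hcoe], rfl⟩))
        rw [hcoe] at ht'
        exact hinj he' ▸ ht'
      have h1 := absNorm_dvd_absNorm_of_le hle
      rw [map_pow, map_pow, hP] at h1
      have := Nat.pow_dvd_pow_iff_le_right hp.one_lt |>.1 h1
      omega
    · by_contra h
      push Not at h
      have hle : P.1 ^ (n + 1) ≤ span {(p : 𝓞 K)} * P.1 ^ n := fun t ht => by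
        obtain ⟨y, hy, hty⟩ := h _ ((hmem (n + 1) _).2 ⟨t, by rwa [hcoe], rfl⟩)
        obtain ⟨t', ht', rfl⟩ := (hmem n y).1 hy
        rw [hcoe] at ht'
        exact mem_span_singleton_mul.2 ⟨t', ht', hinj (by simpa using hty.symm)⟩
      have h1 := absNorm_dvd_absNorm_of_le hle
      rw [map_mul, map_pow, map_pow, hP, absNorm_span_natCast hK hd0 hs he, ← pow_add] at h1
      have := Nat.pow_dvd_pow_iff_le_right hp.one_lt |>.1 h1
      omega
  set h := Fintype.card (ClassGroup (𝓞 K))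
  have hh : h ≠ 0 := Fintype.card_ne_zero
  obtain ⟨α, hα⟩ : ∃ α, P.1 ^ h = span {α} := by
    have h1 : ClassGroup.mk0 (P ^ h) = 1 := by rw [map_pow, pow_card_eq_one]
    obtain ⟨α, hα⟩ := ((ClassGroup.mk0_eq_one_iff (P ^ h).2).1 h1).principal
    exact ⟨α, (hcoe h).symm.trans hα⟩
  have hα0 : α ≠ 0 := fun h0 => hPne h (by rw [hα, h0, span_singleton_eq_bot])
  have hα' : e (α : K) ≠ 0 := (map_ne_zero e).2 (by simpa using hα0)
  have hprod : ∏ i ∈ Finset.range h, r i = e (α : K) ^ 12 := by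
    rw [prod_div_range D hD]
    have hl : (L h).lattice = (scalePair (L 0) (e (α : K)) hα').lattice := by
      ext z
      rw [hmem h, mem_scalePair]
      constructor
      · rintro ⟨t, ht, rfl⟩
        rw [hcoe, hα, mem_span_singleton] at ht
        obtain ⟨u, rfl⟩ := ht
        exact ⟨e (u : K), (hmem 0 _).2 ⟨u, by simp, rfl⟩, by simp⟩
      · rintro ⟨y, hy, rfl⟩
        obtain ⟨u, -, rfl⟩ := (hmem 0 y).1 hy
        exact ⟨α * u, by rw [hcoe, hα, mem_span_singleton]; exact dvd_mul_right _ _, by simp⟩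
    simp only [hDdef]
    rw [discr_congr hl, discr_scalePair (L 0) hα']
    have := hD 0
    simp only [hDdef] at this
    field_simp
  have hfac : ∀ i ∈ Finset.range h, IsIntegral ℤ (e (α : K) ^ 12 / r i) := fun i hi => by
    rw [← hprod, ← Finset.mul_prod_erase _ _ hi, mul_div_cancel_left₀ _ (hr i)]
    exact IsIntegral.prod _ fun j _ => (hstep j).1
  -- `α¹² + ᾱ¹²` is prime to `p`
  obtain ⟨t, ht, htp, htN⟩ := exists_trace_not_dvd hK hd hd0 hs he hPp hp hP hpD
    (n := h * 12) (by omega) (α := α ^ 12) (by rw [pow_mul, hα, span_singleton_pow])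
  simp only [map_pow] at ht htN
  obtain ⟨x, y, hxy⟩ : IsCoprime t ((p : ℤ) ^ 12) :=
    (((Nat.prime_iff_prime_int.1 hp).coprime_iff_not_dvd.2 htp).symm).pow_right
  have hxy' : (x : ℂ) * t + y * (p : ℂ) ^ 12 = 1 := by exact_mod_cast hxy
  set u : ℕ → ℂ := fun i => (p : ℂ) ^ 12 / (r i * conj (r i)) with hu
  have hui : ∀ i ∈ Finset.range h, IsIntegral ℤ (u i) := fun i hi => by
    have h1 := hfac i hi
    have h2 := (hstep i).2
    have h3 := isIntegral_conj h1
    have h4 := isIntegral_conj h2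
    simp only [map_div₀, map_pow, map_natCast] at h3 h4
    have hr' : conj (r i) ≠ 0 := (map_ne_zero _).2 (hr i)
    have key : u i = (x : ℂ) * ((e (α : K) ^ 12 / r i) * ((p : ℂ) ^ 12 / conj (r i)) +
          ((p : ℂ) ^ 12 / r i) * (conj (e (α : K)) ^ 12 / conj (r i))) +
        (y : ℂ) * (((p : ℂ) ^ 12 / r i) * ((p : ℂ) ^ 12 / conj (r i))) := by
      simp only [hu]
      generalize hρ : r i = ρ at hr' ⊢
      have hρ0 : ρ ≠ 0 := hρ ▸ hr i
      field_simp
      linear_combination -hxy' - (x : ℂ) * ht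
    rw [key]
    exact (isIntegral_algebraMap.mul ((h1.mul h4).add (h2.mul h3))).add
      (isIntegral_algebraMap.mul (h2.mul h4))
  have hu1 : ∏ i ∈ Finset.range h, u i = 1 := by
    have hp12 : ((p : ℂ) ^ 12) ^ h = (e (α : K) ^ 12) * conj (e (α : K) ^ 12) := by
      rw [map_pow, htN]; ring
    simp only [hu, Finset.prod_div_distrib, Finset.prod_mul_distrib, Finset.prod_const,
      Finset.card_range, ← map_prod, hprod, hp12]
    exact div_self (mul_ne_zero (pow_ne_zero _ hα') ((map_ne_zero _).2 (pow_ne_zero _ hα')))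
  have h0 : 0 ∈ Finset.range h := Finset.mem_range.2 (Nat.pos_of_ne_zero hh)
  have hinv : IsIntegral ℤ (u 0)⁻¹ := by
    rw [← Finset.mul_prod_erase _ _ h0] at hu1
    rw [inv_eq_of_mul_eq_one_right hu1]
    exact IsIntegral.prod _ fun j hj => hui j (Finset.mem_of_mem_erase hj)
  -- the value of the first unit
  have key : u 0 = (((height (T (ClassGroup.mk0 P)) / height (T 1)) ^ 24 : ℝ) : ℂ) := by
    have hτ0 : T (ClassGroup.mk0 (P ^ 0)) = T 1 := by rw [pow_zero, map_one]
    have hτ1 : T (ClassGroup.mk0 (P ^ (0 + 1))) = T (ClassGroup.mk0 P) := by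
      rw [zero_add, pow_one]
    have hn0 := hnorm 0
    have hn1 := hnorm (0 + 1)
    rw [hτ0, hcoe, pow_zero, one_eq_top, absNorm_top, Nat.cast_one, one_mul] at hn0
    rw [hτ1, hcoe, zero_add, pow_one, hP] at hn1
    simp only [hu, r, hDdef, L]
    rw [discr_scale _ (hc 0), discr_scale _ (hc (0 + 1)), hτ0, hτ1, Complex.mul_conj]
    simp only [div_pow, norm_eta_pow]
    rw [zero_add]
    have hy0 := (T 1).im_pos
    have hy1 := (T (ClassGroup.mk0 P)).im_pos
    have hd1 := norm_ne_zero_iff.2 (ModularForm.discriminant_ne_zero (T (ClassGroup.mk0 P)))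
    have hd0' := norm_ne_zero_iff.2 (ModularForm.discriminant_ne_zero (T 1))
    have hb0 := norm_ne_zero_iff.2 (hc 0)
    have hb1 := norm_ne_zero_iff.2 (hc 1)
    have ht0 := norm_ne_zero_iff.2 tpi_ne_zero
    rw [← Complex.ofReal_natCast, ← Complex.ofReal_pow, ← Complex.ofReal_div, Complex.ofReal_inj]
    simp only [map_div₀, map_mul, map_pow, Complex.normSq_eq_norm_sq] at hn0 hn1 ⊢
    field_simp
    have hp12 : (‖c 1‖ ^ 2 * (T (ClassGroup.mk0 P)).im) ^ 12 =
        (p : ℝ) ^ 12 * (‖c 0‖ ^ 2 * (T 1).im) ^ 12 := by rw [hn1, hn0, mul_pow]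
    linear_combination -hp12
  refine ⟨key ▸ hui 0 h0, ?_⟩
  rw [show ((height (T 1) / height (T (ClassGroup.mk0 P))) ^ 24 : ℝ) =
      ((height (T (ClassGroup.mk0 P)) / height (T 1)) ^ 24)⁻¹ by rw [← inv_pow, inv_div],
    Complex.ofReal_inv, ← key]
  exact hinv

end FA.EllipticUnits

end
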