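import Fermat.Agent.EllipticUnits.Values
import Fermat.Agent.Tau.HatadaTop
import Fermat.Agent.Root.SummaryJBijection

/-!
# The discriminants of a sublattice of prime index

For a lattice with integral invariant and a sublattice of prime index `p`, the quotient `r` of the
discriminants and `p¹²/r` are algebraic integers.
-/

set_option autoImplicit false
set_option linter.style.haveILetI false

noncomputable section

namespace FA.EllipticUnits

open UpperHalfPlane hiding I
open FA.ModField FA.JInj FA.Mazur.Wp FA.Hatada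

theorem discr_ne_zero (L : PeriodPair) : discr L ≠ 0 :=
  FA.Summary.lattice_discriminant_ne_zero L

theorem discr_scalePair (L : PeriodPair) {c : ℂ} (hc : c ≠ 0) :
    discr (scalePair L c hc) = (c ^ 12)⁻¹ * discr L := by
  rw [discr, discr, g₂_scalePair, g₃_scalePair, mul_pow, mul_pow, ← inv_pow, ← inv_pow,
    ← inv_pow, ← pow_mul, ← pow_mul]
  ring

theorem mem_scaled {τ : ℍ} {c : ℂ} {hc : c ≠ 0} {x : ℂ} :
    x ∈ (scalePair (latPair τ) c hc).lattice ↔ ∃ m n : ℤ, c * ((m : ℂ) * τ + n) = x := by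
  rw [mem_scalePair]
  exact ⟨fun ⟨y, hy, e⟩ => by obtain ⟨a, b, rfl⟩ := mem_latPair.1 hy; exact ⟨a, b, e⟩,
    fun ⟨a, b, e⟩ => ⟨_, mem_latPair.2 ⟨a, b, rfl⟩, e⟩⟩

theorem coe_scaleH' (p : ℕ) [NeZero p] (τ : ℍ) : (scaleH p τ : ℂ) = (p : ℂ) * τ := coe_scaleH p τ

/-- The sublattices of prime index. -/
theorem sublattice_cases {p : ℕ} [Fact p.Prime] {τ : ℍ} {c : ℂ} (hc : c ≠ 0) {M : PeriodPair}
    (hle : ∀ x ∈ M.lattice, x ∈ (scalePair (latPair τ) c hc).lattice)
    (hp : ∀ x ∈ (scalePair (latPair τ) c hc).lattice, (p : ℂ) * x ∈ M.lattice)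
    (hne : ∃ x ∈ (scalePair (latPair τ) c hc).lattice, x ∉ M.lattice)
    (hnp : ∃ x ∈ M.lattice, ∀ y ∈ (scalePair (latPair τ) c hc).lattice, x ≠ (p : ℂ) * y) :
    M.lattice = (scalePair (latPair (scaleH p τ)) c hc).lattice ∨
      ∃ b < p, M.lattice = (scalePair (latPair (divH p b τ)) (c * p)
        (mul_ne_zero hc (Nat.cast_ne_zero.2 (Fact.out : p.Prime).ne_zero))).lattice := by
  have hpp : Prime (p : ℤ) := Nat.prime_iff_prime_int.1 Fact.out
  have hp0 : (p : ℂ) ≠ 0 := Nat.cast_ne_zero.2 (Fact.out : p.Prime).ne_zero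
  set v : ℤ → ℤ → ℂ := fun m n => c * ((m : ℂ) * τ + n) with hv
  have hmul : ∀ {m n : ℤ}, v m n ∈ M.lattice → ∀ k : ℤ, v (k * m) (k * n) ∈ M.lattice :=
    fun {m n} h k => by
      have h' := M.lattice.smul_mem k h
      rw [zsmul_eq_mul] at h'
      simp only [hv, Int.cast_mul] at h' ⊢
      convert h' using 1
      ring
  have hadd : ∀ {m n m' n' : ℤ}, v m n ∈ M.lattice → v m' n' ∈ M.lattice →
      v (m + m') (n + n') ∈ M.lattice := fun {m n m' n'} h h' => by
    have := M.lattice.add_mem h h'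
    simp only [hv, Int.cast_add] at this ⊢
    convert this using 1
    ring
  have hpv : ∀ m n : ℤ, v ((p : ℤ) * m) ((p : ℤ) * n) ∈ M.lattice := fun m n => by
    have := hp _ (mem_scaled.2 ⟨m, n, rfl⟩)
    simp only [hv, Int.cast_mul, Int.cast_natCast]
    convert this using 1
    ring
  -- a multiple prime to `p` may be cancelled
  have hcancel : ∀ {m n k : ℤ}, ¬(p : ℤ) ∣ k → v (k * m) (k * n) ∈ M.lattice →
      v m n ∈ M.lattice := by
    intro m n k hk h
    obtain ⟨a, b, hab⟩ := (hpp.coprime_iff_not_dvd.2 hk)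
    have := hadd (hpv (a * m) (a * n)) (hmul h b)
    rwa [show (p : ℤ) * (a * m) + b * (k * m) = m by linear_combination m * hab,
      show (p : ℤ) * (a * n) + b * (k * n) = n by linear_combination n * hab] at this
  by_cases hA : ∃ m n : ℤ, v m n ∈ M.lattice ∧ ¬(p : ℤ) ∣ m
  · obtain ⟨m, n, hmn, hm⟩ := hA
    obtain ⟨a, b, hab⟩ := (hpp.coprime_iff_not_dvd.2 hm)
    obtain ⟨k, hkp, q, hq⟩ : ∃ k : ℕ, k < p ∧ ∃ q : ℤ, b * n = (k : ℤ) + p * q := by
      have h1 := Int.emod_nonneg (b * n) (Nat.cast_ne_zero.2 (Fact.out : p.Prime).ne_zero :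
        (p : ℤ) ≠ 0)
      have h2 := Int.emod_lt_of_pos (b * n) (by exact_mod_cast (Fact.out : p.Prime).pos :
        (0 : ℤ) < p)
      refine ⟨((b * n) % p).toNat, by omega, b * n / p, ?_⟩
      rw [Int.toNat_of_nonneg h1, Int.emod_add_mul_ediv]
    have hk1 : v 1 k ∈ M.lattice := by
      have := hadd (hpv a (-q)) (hmul hmn b)
      rwa [show (p : ℤ) * a + b * m = 1 by linear_combination hab,
        show (p : ℤ) * -q + b * n = (k : ℤ) by linear_combination hq] at this
    refine Or.inr ⟨k, hkp, SetLike.ext fun x => ?_⟩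
    rw [mem_scaled]
    constructor
    · intro hx
      obtain ⟨i, j, rfl⟩ := mem_scaled.1 (hle x hx)
      by_cases hd : (p : ℤ) ∣ j - i * k
      · obtain ⟨t, ht⟩ := hd
        refine ⟨i, t, ?_⟩
        rw [coe_divH]
        have ht' : (j : ℂ) - i * k = p * t := by exact_mod_cast ht
        field_simp
        linear_combination -ht'
      · exfalso
        have h01 : v 0 1 ∈ M.lattice := by
          refine hcancel hd ?_
          have := hadd (hx : v i j ∈ M.lattice) (hmul hk1 (-i))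
          rwa [show i + -i * 1 = (j - i * k) * 0 by ring,
            show j + -i * (k : ℤ) = (j - i * k) * 1 by ring] at this
        have h10 : v 1 0 ∈ M.lattice := by
          have := hadd hk1 (hmul h01 (-(k : ℤ)))
          rwa [show (1 : ℤ) + -(k : ℤ) * 0 = 1 by ring,
            show (k : ℤ) + -(k : ℤ) * 1 = 0 by ring] at this
        obtain ⟨y, hy, hyM⟩ := hne
        obtain ⟨r, s, rfl⟩ := mem_scaled.1 hy
        refine hyM ?_
        have := hadd (hmul h10 r) (hmul h01 s)
        rwa [show r * 1 + s * 0 = r by ring, show r * 0 + s * 1 = s by ring] at this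
    · rintro ⟨i, t, rfl⟩
      have := hadd (hmul hk1 i) (hpv 0 t)
      rw [show i * 1 + (p : ℤ) * 0 = i by ring] at this
      simp only [hv, Int.cast_add, Int.cast_mul, Int.cast_natCast] at this
      convert this using 1
      rw [coe_divH]
      field_simp
      ring
  · push Not at hA
    have h01 : v 0 1 ∈ M.lattice := by
      obtain ⟨x, hx, hxp⟩ := hnp
      obtain ⟨i, j, rfl⟩ := mem_scaled.1 (hle x hx)
      obtain ⟨i', rfl⟩ := hA i j hx
      by_cases hd : (p : ℤ) ∣ j
      · obtain ⟨j', rfl⟩ := hd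
        exact absurd (by push_cast; ring) (hxp _ (mem_scaled.2 ⟨i', j', rfl⟩))
      · refine hcancel hd ?_
        have := hadd (hx : v ((p : ℤ) * i') j ∈ M.lattice) (hpv (-i') 0)
        rwa [show (p : ℤ) * i' + (p : ℤ) * -i' = j * 0 by ring,
          show j + (p : ℤ) * 0 = j * 1 by ring] at this
    refine Or.inl (SetLike.ext fun x => ?_)
    rw [mem_scaled]
    constructor
    · intro hx
      obtain ⟨i, j, rfl⟩ := mem_scaled.1 (hle x hx)
      obtain ⟨i', rfl⟩ := hA i j hx
      exact ⟨i', j, by rw [coe_scaleH']; push_cast; ring⟩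
    · rintro ⟨i, j, rfl⟩
      have := hadd (hpv i 0) (hmul h01 j)
      simp only [hv, Int.cast_add, Int.cast_mul, Int.cast_natCast] at this
      convert this using 1
      rw [coe_scaleH']
      push_cast
      ring

/-- **The quotient of the discriminants along a sublattice of prime index.** -/
theorem isIntegral_discr_div {p : ℕ} [Fact p.Prime] {τ : ℍ} (hj : IsIntegral ℤ (jfun τ)) {c : ℂ}
    (hc : c ≠ 0) {L M : PeriodPair} (hL : L.lattice = (scalePair (latPair τ) c hc).lattice)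
    (hle : ∀ x ∈ M.lattice, x ∈ L.lattice) (hp : ∀ x ∈ L.lattice, (p : ℂ) * x ∈ M.lattice)
    (hne : ∃ x ∈ L.lattice, x ∉ M.lattice)
    (hnp : ∃ x ∈ M.lattice, ∀ y ∈ L.lattice, x ≠ (p : ℂ) * y) :
    IsIntegral ℤ (discr L / discr M) ∧ IsIntegral ℤ ((p : ℂ) ^ 12 / (discr L / discr M)) := by
  have hp0 : (p : ℂ) ≠ 0 := Nat.cast_ne_zero.2 (Fact.out : p.Prime).ne_zero
  have ht := tpi_ne_zero
  rw [hL] at hle hp hne hnp
  rw [discr_congr hL, discr_scale τ hc]
  have hΔ := ModularForm.discriminant_ne_zero τ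
  suffices h : ∃ u : ℂ, (IsIntegral ℤ u ∧ IsIntegral ℤ ((p : ℂ) ^ 12 / u)) ∧ u ≠ 0 ∧
      (tpi / c) ^ 12 * ModularForm.discriminant τ / discr M = (p : ℂ) ^ 12 / u by
    obtain ⟨u, ⟨h1, h2⟩, hu, h3⟩ := h
    rw [h3, div_div_cancel₀ (pow_ne_zero _ hp0)]
    exact ⟨h2, h1⟩
  rcases sublattice_cases hc hle hp hne hnp with h | ⟨b, hb, h⟩
  · have hΔ' := ModularForm.discriminant_ne_zero (scaleH p τ)
    refine ⟨unitFun p τ, isIntegral_scale hj, by simp [unitFun, hp0, hΔ, hΔ'], ?_⟩
    rw [discr_congr h, discr_scale _ hc, unitFun]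
    field_simp
  · have hΔ' := ModularForm.discriminant_ne_zero (divH p b τ)
    refine ⟨_, isIntegral_div hj hb, by simp [hΔ, hΔ'], ?_⟩
    rw [discr_congr h, discr_scale _ (mul_ne_zero hc hp0)]
    field_simp

end FA.EllipticUnits

end
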