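import Fermat.Agent.ModField.Igusa.LevelP
import Fermat.Agent.Tau.SingularIntegral

/-!
# The conjugates of `p¹² Δ(pz)/Δ(z)` at a point with integral invariant

The monic equation of `p¹² Δ(pz)/Δ(z)` over `ℂ[j]` has coefficients in `ℤ̄[j]` and its constant
term is a unit times `p¹²`. So at a point with integral `j` each conjugate `u` and `p¹²/u` are
algebraic integers.
-/

set_option autoImplicit false
set_option linter.style.haveILetI false

noncomputable section

namespace FA.EllipticUnits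

open UpperHalfPlane hiding I
open HahnSeries ModularCurve FA.ModField FA.SingularIntegral

variable {p : ℕ} [Fact p.Prime]

theorem deltaq_mem_intSeries : deltaq ℂ ∈ intSeries := mem_intSeries.2 fun n => by
  rw [← coeffMap_deltaq (Int.castRingHom ℂ), coeffMap_coeff]
  exact isIntegral_algebraMap

theorem dinvq_mem_intSeries : dinvq ℂ ∈ intSeries := mem_intSeries.2 fun n => by
  rw [← coeffMap_dinvq (Int.castRingHom ℂ), coeffMap_coeff]
  exact isIntegral_algebraMap

theorem qExpand_mem_intSeries (k : ℕ) [NeZero k] {f : LaurentSeries ℂ} (hf : f ∈ intSeries) :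
    qExpand ℂ k f ∈ intSeries := mem_intSeries.2 fun n => by
  by_cases h : (k : ℤ) ∣ n
  · obtain ⟨m, rfl⟩ := h
    rw [qExpand_coeff_mul]
    exact mem_intSeries.1 hf m
  · rw [qExpand_coeff_of_not_dvd k _ h]
    exact isIntegral_zero

theorem unitA_zetaN_pow (b : ℕ) : UnitA (((zetaN p) ^ b : ℂˣ) : ℂ) := by
  refine unitA_of_pow (N := p) (Fact.out : p.Prime).pos ?_
  rw [Units.val_pow_eq_pow_val, ← pow_mul, mul_comm, pow_mul,
    (zetaN_prim p).pow_eq_one, one_pow]

theorem uRoot_mem_intSeries (i : Option (Fin p)) : uRoot ℂ p (zetaN p) i ∈ intSeries := by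
  cases i with
  | none =>
    exact mul_mem (C_mem ((isIntegral_natCast p).pow 12))
      (mul_mem (qExpand_mem_intSeries _ deltaq_mem_intSeries)
        (qExpand_mem_intSeries _ dinvq_mem_intSeries))
  | some b =>
    refine mul_mem (mem_intSeries.2 fun n => ?_) (qExpand_mem_intSeries _ dinvq_mem_intSeries)
    rw [twist_coeff]
    refine IsIntegral.mul ?_ (mem_intSeries.1 deltaq_mem_intSeries n)
    refine (unitA_of_pow (N := p) (Fact.out : p.Prime).pos ?_).2.1
    rw [Units.val_zpow_eq_zpow_val, Units.val_pow_eq_pow_val, ← zpow_natCast ((_ : ℂ) ^ n),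
      ← zpow_mul, mul_comm, zpow_mul, zpow_natCast, ← pow_mul, mul_comm, pow_mul,
      (zetaN_prim p).pow_eq_one, one_pow, one_zpow]

theorem qExpand_low (k : ℕ) [NeZero k] {f : LaurentSeries ℂ} {m : ℤ} (hf : OrdGE m f) :
    OrdGE ((k : ℤ) * m) (qExpand ℂ k f) := fun i hi => by
  by_cases hdvd : (k : ℤ) ∣ i
  · obtain ⟨t, rfl⟩ := hdvd
    rw [qExpand_coeff_mul]
    refine hf t ?_
    exact lt_of_mul_lt_mul_left hi (by positivity)
  · exact qExpand_coeff_of_not_dvd k _ hdvd

/-- The leading term of the product of the conjugates is a unit times `p¹²` in degree `0`. -/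
theorem order_prod_uRoot : ∃ ε : ℂ, UnitA ε ∧
    (∏ i, -uRoot ℂ p (zetaN p) i).order = 0 ∧
    (∏ i, -uRoot ℂ p (zetaN p) i).leadingCoeff = (p : ℂ) ^ 12 * ε := by
  classical
  have hp := (Fact.out : p.Prime).pos
  have hd : OrdGE (-(p : ℤ)) (qExpand ℂ p (dinvq ℂ)) ∧
      (qExpand ℂ p (dinvq ℂ)).coeff (-(p : ℤ)) = 1 := by
    refine ⟨by simpa using qExpand_low p (dinvq_coeff (R := ℂ)).1, ?_⟩
    rw [show -(p : ℤ) = (p : ℤ) * (-1) by ring, qExpand_coeff_mul, dinvq_coeff.2]
  set o : Option (Fin p) → ℤ := fun i => Option.elim i ((p : ℤ) * p - p) fun _ => 1 - (p : ℤ)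
  set l : Option (Fin p) → ℂ := fun i =>
    Option.elim i ((p : ℂ) ^ 12) fun b => ((zetaN p ^ (b : ℕ) : ℂˣ) : ℂ)
  have hl : ∀ i, (-uRoot ℂ p (zetaN p) i).order = o i ∧
      (-uRoot ℂ p (zetaN p) i).leadingCoeff = -l i := by
    intro i
    have hne : -l i ≠ 0 := neg_ne_zero.2 (by
      cases i with
      | none => exact pow_ne_zero _ (Nat.cast_ne_zero.2 hp.ne')
      | some b => exact Units.ne_zero _)
    suffices h : OrdGE (o i) (uRoot ℂ p (zetaN p) i) ∧
        (uRoot ℂ p (zetaN p) i).coeff (o i) = l i by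
      have h' : OrdGE (o i) (-uRoot ℂ p (zetaN p) i) := fun k hk => by
        rw [coeff_neg, h.1 k hk, neg_zero]
      have e : (-uRoot ℂ p (zetaN p) i).coeff (o i) = -l i := by rw [coeff_neg, h.2]
      have ho := order_eq_of h' (by rw [e]; exact hne)
      exact ⟨ho, by rw [leadingCoeff_eq, ho, e]⟩
    cases i with
    | none =>
      have h1 : OrdGE ((p * p : ℕ) : ℤ) (qExpand ℂ (p * p) (deltaq ℂ)) ∧
          (qExpand ℂ (p * p) (deltaq ℂ)).coeff ((p * p : ℕ) : ℤ) = 1 := by
        refine ⟨by simpa using qExpand_low (p * p) (deltaq_coeff (R := ℂ)).1, ?_⟩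
        conv_lhs => arg 2; rw [← mul_one (((p * p : ℕ) : ℤ))]
        rw [qExpand_coeff_mul, deltaq_coeff.2]
      have h2 := h1.1.mul hd.1
      have e : o none = ((p * p : ℕ) : ℤ) + -(p : ℤ) := by simp [o]; ring
      refine ⟨?_, ?_⟩
      · intro k hk
        rw [uRoot, HahnSeries.C_apply, coeff_single_zero_mul, h2 k (by rwa [← e]), mul_zero]
      · rw [uRoot, e, HahnSeries.C_apply, coeff_single_zero_mul,
          coeff_mul_of_ordGE h1.1 hd.1, h1.2, hd.2]
        simp [l]
    | some b =>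
      have h1 : OrdGE 1 (twist (zetaN p ^ (b : ℕ)) (deltaq ℂ)) := twist_ordGE.2 deltaq_coeff.1
      have e : o (some b) = 1 + -(p : ℤ) := by simp [o]; ring
      refine ⟨fun k hk => h1.mul hd.1 k (by rwa [← e]), ?_⟩
      rw [uRoot, e, coeff_mul_of_ordGE h1 hd.1, hd.2, mul_one, twist_coeff, deltaq_coeff.2,
        mul_one, zpow_one]
      rfl
  have hne : ∀ i, (-uRoot ℂ p (zetaN p) i).leadingCoeff ≠ 0 := fun i => by
    rw [(hl i).2, neg_ne_zero]
    cases i with
    | none => exact pow_ne_zero _ (Nat.cast_ne_zero.2 hp.ne')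
    | some b => exact Units.ne_zero _
  have key : ∀ s : Finset (Option (Fin p)),
      (∏ i ∈ s, -uRoot ℂ p (zetaN p) i).order = ∑ i ∈ s, o i ∧
      (∏ i ∈ s, -uRoot ℂ p (zetaN p) i).leadingCoeff = ∏ i ∈ s, -l i := by
    intro s
    induction s using Finset.induction with
    | empty => simp
    | @insert a t ha ih =>
      have h : (-uRoot ℂ p (zetaN p) a).leadingCoeff *
          (∏ i ∈ t, -uRoot ℂ p (zetaN p) i).leadingCoeff ≠ 0 := by
        refine mul_ne_zero (hne a) ?_
        rw [ih.2]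
        exact Finset.prod_ne_zero_iff.2 fun i _ => by rw [← (hl i).2]; exact hne i
      rw [Finset.prod_insert ha, order_mul_of_ne_zero h, leadingCoeff_mul_of_ne_zero h,
        Finset.sum_insert ha, Finset.prod_insert ha, (hl a).1, (hl a).2, ih.1, ih.2]
      exact ⟨rfl, rfl⟩
  refine ⟨-∏ b : Fin p, -((zetaN p ^ (b : ℕ) : ℂˣ) : ℂ), UnitA.neg ?_, ?_, ?_⟩
  · exact Finset.prod_induction _ UnitA (fun a b => UnitA.mul) unitA_one
      fun b _ => (unitA_zetaN_pow b).neg
  · rw [(key Finset.univ).1, Fintype.sum_option]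
    simp [o]
  · rw [(key Finset.univ).2, Fintype.prod_option]
    simp only [l, Option.elim]
    ring

/-- A root of the equation. -/
theorem eval_root_eq_zero {Φ : Polynomial (Polynomial ℂ)}
    (hΦ : Φ.map (evalJ ℂ p) = ∏ i, (Polynomial.X - Polynomial.C (uRoot ℂ p (zetaN p) i)))
    {g : ℍ → ℂ} {i : Option (Fin p)} (hg : HasExp (qp p) g (uRoot ℂ p (zetaN p) i)) (z : ℍ) :
    (Φ.map (Polynomial.evalRingHom (jfun z))).eval (g z) = 0 := by
  classical
  have h : HasExp (qp p) (∑ k ∈ Finset.range (Φ.natDegree + 1),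
        fun z => (Φ.coeff k).eval (jfun z) * g z ^ k)
      (∑ k ∈ Finset.range (Φ.natDegree + 1),
        evalJ ℂ p (Φ.coeff k) * uRoot ℂ p (zetaN p) i ^ k) :=
    hasExp_sum _ fun k _ =>
      (hasExp_poly (qp_ne_zero p) (FA.ModField.hasExp_jfun_qp p) (Φ.coeff k)).mul (qp_ne_zero p)
        (hg.pow (qp_ne_zero p) k)
  have h0 : (∑ k ∈ Finset.range (Φ.natDegree + 1),
      evalJ ℂ p (Φ.coeff k) * uRoot ℂ p (zetaN p) i ^ k) = 0 := by
    rw [← Polynomial.eval₂_eq_sum_range, ← Polynomial.eval_map, hΦ, Polynomial.eval_prod,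
      Finset.prod_eq_zero (Finset.mem_univ i) (by simp)]
  rw [h0] at h
  have h1 := (h z).unique
    (by simp only [HahnSeries.coeff_zero, zero_mul]; exact hasSum_zero)
  rw [Finset.sum_apply] at h1
  rw [Polynomial.eval_map, Polynomial.eval₂_eq_sum_range]
  exact h1

/-- The equation at a point with integral `j`. -/
theorem exists_equation_at {z : ℍ} (hj : IsIntegral ℤ (jfun z)) :
    ∃ (P : Polynomial ℂ) (ε : ℂ), UnitA ε ∧ P.Monic ∧ (∀ k, IsIntegral ℤ (P.coeff k)) ∧
      P.coeff 0 = (p : ℂ) ^ 12 * ε ∧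
      ∀ (g : ℍ → ℂ) (i : Option (Fin p)), HasExp (qp p) g (uRoot ℂ p (zetaN p) i) →
        P.eval (g z) = 0 := by
  classical
  obtain ⟨Φ, hΦ⟩ := exists_equation_complex p (unitFun_mem p) _
    (uRoot_injective p (IsPrimitiveRoot.coe_units_iff.1 (zetaN_prim p))) (hasExp_uRoot p)
  have hinj : Function.Injective (evalJ ℂ p) := by
    rw [injective_iff_map_eq_zero]
    intro Q hQ
    have h := evalJ_coeff_lead p Q
    rw [hQ, coeff_zero] at h
    exact Polynomial.leadingCoeff_eq_zero.1 h.symm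
  have hmon : Φ.Monic := Polynomial.monic_of_injective hinj
    (hΦ.symm ▸ Polynomial.monic_prod_X_sub_C _ _)
  have hlift : (∏ i, (Polynomial.X - Polynomial.C (uRoot ℂ p (zetaN p) i))) ∈
      Polynomial.lifts intSeries.subtype := by
    refine prod_mem fun i _ => ⟨Polynomial.X - Polynomial.C ⟨_, uRoot_mem_intSeries i⟩, ?_⟩
    simp
  obtain ⟨hJ1, hJ2, hJ3⟩ := Jp_low p
  have hm : -(p : ℤ) < 0 := by have := (Fact.out : p.Prime).pos; omega
  have hcoef : ∀ k i, IsIntegral ℤ ((Φ.coeff k).coeff i) := fun k => by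
    refine poly_integral hm hJ3 hJ1 hJ2 _ _ le_rfl ?_
    obtain ⟨y, hy⟩ := (Polynomial.lifts_iff_coeff_lifts _).1 hlift k
    rw [← hΦ, Polynomial.coeff_map] at hy
    show evalJ ℂ p (Φ.coeff k) ∈ intSeries
    rw [← hy]
    exact y.2
  obtain ⟨ε, hε, ho, hl⟩ := order_prod_uRoot (p := p)
  have h0 : Φ.coeff 0 = Polynomial.C ((p : ℂ) ^ 12 * ε) := by
    have e : evalJ ℂ p (Φ.coeff 0) = ∏ i, -uRoot ℂ p (zetaN p) i := by
      rw [← Polynomial.coeff_map, hΦ, Polynomial.coeff_zero_eq_eval_zero, Polynomial.eval_prod]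
      simp
    obtain ⟨e1, e2⟩ := eval_top hm hJ1 hJ2 (le_refl (Φ.coeff 0).natDegree)
    have e1' : OrdGE (-(p : ℤ) * (Φ.coeff 0).natDegree) (evalJ ℂ p (Φ.coeff 0)) := e1
    have e2' : (evalJ ℂ p (Φ.coeff 0)).coeff (-(p : ℤ) * (Φ.coeff 0).natDegree) =
        (Φ.coeff 0).coeff (Φ.coeff 0).natDegree := e2
    have hne : Φ.coeff 0 ≠ 0 := fun h => by
      rw [h, map_zero] at e
      rw [← e, leadingCoeff_zero] at hl
      exact mul_ne_zero (pow_ne_zero _ (Nat.cast_ne_zero.2 (Fact.out : p.Prime).ne_zero)) hε.1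
        hl.symm
    have ho' := order_eq_of e1' (by
      rw [e2', Polynomial.coeff_natDegree]; exact Polynomial.leadingCoeff_ne_zero.2 hne)
    rw [e, ho] at ho'
    have hdeg : (Φ.coeff 0).natDegree = 0 := by
      rcases mul_eq_zero.1 ho'.symm with h | h
      · omega
      · exact_mod_cast h
    rw [leadingCoeff_eq, ho, ← e] at hl
    rw [hdeg, Nat.cast_zero, mul_zero, hl] at e2'
    rw [Polynomial.eq_C_of_natDegree_eq_zero hdeg, ← e2']
  refine ⟨Φ.map (Polynomial.evalRingHom (jfun z)), ε, hε, hmon.map _, fun k => ?_, ?_,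
    fun g i hg => eval_root_eq_zero hΦ hg z⟩
  · rw [Polynomial.coeff_map, Polynomial.coe_evalRingHom, Polynomial.eval_eq_sum_range]
    exact IsIntegral.sum _ fun i _ => (hcoef k i).mul (hj.pow i)
  · rw [Polynomial.coeff_map, h0]
    simp

/-- A nonzero conjugate and its quotient into `p¹²` are integral. -/
theorem isIntegral_of_hasExp {z : ℍ} (hj : IsIntegral ℤ (jfun z)) {g : ℍ → ℂ}
    {i : Option (Fin p)} (hg : HasExp (qp p) g (uRoot ℂ p (zetaN p) i)) (hg0 : g z ≠ 0) :
    IsIntegral ℤ (g z) ∧ IsIntegral ℤ ((p : ℂ) ^ 12 / g z) := by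
  obtain ⟨P, ε, hε, hmon, hc, h0, hroot⟩ := exists_equation_at (p := p) hj
  have hx := hroot g i hg
  have hu : IsIntegral ℤ (g z) :=
    isIntegral_of_root (by rw [hmon.leadingCoeff]; exact unitA_one) hc hx
  refine ⟨hu, ?_⟩
  have h1 := congrArg (Polynomial.eval (g z)) P.X_mul_divX_add
  rw [Polynomial.eval_add, Polynomial.eval_mul, Polynomial.eval_X, Polynomial.eval_C, hx, h0] at h1
  have h2 : (p : ℂ) ^ 12 / g z = -(ε⁻¹ * P.divX.eval (g z)) := by
    have := hε.1
    field_simp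
    linear_combination h1
  rw [h2, Polynomial.eval_eq_sum_range]
  refine (hε.2.2.mul (IsIntegral.sum _ fun k _ => ?_)).neg
  rw [Polynomial.coeff_divX]
  exact (hc _).mul (hu.pow k)

theorem hasExp_unitFun_none :
    HasExp (qp p) (unitFun p) (uRoot ℂ p (zetaN p) none) := by
  have hinv := hasExp_inv_discriminant.comp (U := qp p) id p 1 (fun z => by simp [qp_pow_self])
  rw [twist_one_apply] at hinv
  have h := hasExp_discriminant.comp (U := qp p) (scaleH p) (p * p) 1 (fun z => by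
    rw [qp_scale, Units.val_one, one_mul, pow_mul, qp_pow_self])
  rw [twist_one_apply] at h
  rw [uRoot]
  exact ((hasExp_C ((p : ℂ) ^ 12)).mul (qp_ne_zero p) (h.mul (qp_ne_zero p) hinv)).congr
    (funext fun z => by simp [unitFun])

theorem hasExp_unitFun_some (b : Fin p) :
    HasExp (qp p) (fun z => ModularForm.discriminant (divH p b z) *
      (ModularForm.discriminant z)⁻¹) (uRoot ℂ p (zetaN p) (some b)) := by
  have hinv := hasExp_inv_discriminant.comp (U := qp p) id p 1 (fun z => by simp [qp_pow_self])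
  rw [twist_one_apply] at hinv
  have h := hasExp_discriminant.comp (U := qp p) (divH p b) 1 _ (qp_divH p b)
  rw [qExpand_one_apply] at h
  rw [uRoot]
  exact (h.mul (qp_ne_zero p) hinv).congr (funext fun z => rfl)

/-- **`p¹² Δ(pτ)/Δ(τ)` at an integral invariant.** -/
theorem isIntegral_scale {τ : ℍ} (hj : IsIntegral ℤ (jfun τ)) :
    IsIntegral ℤ (unitFun p τ) ∧ IsIntegral ℤ ((p : ℂ) ^ 12 / unitFun p τ) :=
  isIntegral_of_hasExp hj hasExp_unitFun_none (by
    simp [unitFun, (Fact.out : p.Prime).ne_zero, ModularForm.discriminant_ne_zero])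

/-- **`Δ((τ+b)/p)/Δ(τ)` at an integral invariant.** -/
theorem isIntegral_div {τ : ℍ} (hj : IsIntegral ℤ (jfun τ)) {b : ℕ} (hb : b < p) :
    IsIntegral ℤ (ModularForm.discriminant (divH p b τ) * (ModularForm.discriminant τ)⁻¹) ∧
      IsIntegral ℤ ((p : ℂ) ^ 12 /
        (ModularForm.discriminant (divH p b τ) * (ModularForm.discriminant τ)⁻¹)) :=
  isIntegral_of_hasExp hj (hasExp_unitFun_some ⟨b, hb⟩) (by
    simp [ModularForm.discriminant_ne_zero])

end FA.EllipticUnits

end
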